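import Fermat.Agent.F4.Glob.Compl.Bridge

/-!
# F4 / GLOB / Compl : weak approximation in the completion model (D4-i)

For finitely many embeddings `j i : F →+* PadicAlgCl (q i)` cutting out pairwise distinct primes
`primeOf (j i)` of `F`, and nonzero `y i ∈ F_{v_i} = complOf (j i)`, there is `a ∈ Fˣ` with
`‖y i / j i a - 1‖ < ε` for all `i`.
(Density of `j i (F)` in `F_{v_i}` + weak approximation in `F`.)
-/

set_option autoImplicit false
set_option linter.unusedSectionVars false

open NumberField IsDedekindDomain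

namespace Fermat.Agent.F4G

variable {F : Type*} [Field F] [NumberField F]

/-- In `PadicAlgCl q`, the product of two elements close to `1` is close to `1`. -/
lemma norm_mul_sub_one_lt {q : ℕ} [Fact q.Prime] {f g : PadicAlgCl q} {ε : ℝ} (hε : ε ≤ 1)
    (hf : ‖f - 1‖ < ε) (hg : ‖g - 1‖ < ε) : ‖f * g - 1‖ < ε := by
  have hf1 : ‖f‖ ≤ 1 := by
    have e : f = (f - 1) + 1 := by ring
    rw [e]
    exact (IsUltrametricDist.norm_add_le_max _ _).trans
      (max_le (hf.le.trans hε) (by rw [norm_one]))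
  have e : f * g - 1 = f * (g - 1) + (f - 1) := by ring
  rw [e]
  refine (IsUltrametricDist.norm_add_le_max _ _).trans_lt (max_lt ?_ hf)
  rw [norm_mul]
  exact (mul_le_of_le_one_left (norm_nonneg _) hf1).trans_lt hg

/-- **(D4-i) Weak approximation in the completion model.** -/
theorem exists_simultaneous_approx {ι : Type*} [Finite ι] (q : ι → ℕ) [∀ i, Fact (q i).Prime]
    (j : ∀ i, F →+* PadicAlgCl (q i)) (hinj : Function.Injective fun i => primeOf (j i))
    (y : ∀ i, PadicAlgCl (q i)) (hy : ∀ i, y i ∈ complOf (j i)) (hy0 : ∀ i, y i ≠ 0)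
    {ε : ℝ} (hε : 0 < ε) : ∃ a : Fˣ, ∀ i, ‖y i / j i (a : F) - 1‖ < ε := by
  classical
  cases nonempty_fintype ι
  have hε' : 0 < min ε 1 := lt_min hε one_pos
  -- local approximations
  have h1 : ∀ i, ∃ a : Fˣ, ‖y i / j i (a : F) - 1‖ < min ε 1 := fun i =>
    exists_unit_approx (j i) (hy i) (hy0 i) hε'
  choose a ha using h1
  -- uniformizers and precisions
  have h2 : ∀ i, ∃ π : F, (primeOf (j i)).valuation F π = WithZero.exp (-1 : ℤ) := fun i =>
    (primeOf (j i)).valuation_exists_uniformizer F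
  choose π hπ using h2
  have h3 : ∀ i, ∃ k : ℕ, ‖j i (π i)‖ ^ k < min ε 1 := fun i =>
    exists_pow_lt_of_lt_one hε' (norm_unif_lt_one (j i) (hπ i))
  choose kf hkf using h3
  set k : ℕ := Finset.univ.sup kf with hk
  set S : Finset (HeightOneSpectrum (𝓞 F)) := Finset.univ.image fun i => primeOf (j i) with hS
  set tgt : HeightOneSpectrum (𝓞 F) → Fˣ := fun v =>
    if h : ∃ i, primeOf (j i) = v then a (Classical.choose h) else 1 with htgt
  have htgt_i : ∀ i, tgt (primeOf (j i)) = a i := by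
    intro i
    have h : ∃ i', primeOf (j i') = primeOf (j i) := ⟨i, rfl⟩
    have e : Classical.choose h = i := hinj (Classical.choose_spec h)
    simp only [htgt, dif_pos h, e]
  obtain ⟨b, hb⟩ := exists_approx S tgt k
  refine ⟨b, fun i => ?_⟩
  have hbi : b / a i ∈ oneModSubgroup F (primeOf (j i)) k := by
    have := hb (primeOf (j i)) (Finset.mem_image_of_mem _ (Finset.mem_univ i))
    rwa [htgt_i i] at this
  have hbi' : a i / b ∈ oneModSubgroup F (primeOf (j i)) k := by
    have := Subgroup.inv_mem _ hbi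
    rwa [inv_div] at this
  have h4 : ‖j i ((a i / b : Fˣ) : F) - 1‖ < ‖j i (π i)‖ ^ k :=
    (mem_oneModSubgroup_iff_norm (j i) (hπ i) _ k).mp hbi'
  have h5 : ‖j i (π i)‖ ^ k ≤ ‖j i (π i)‖ ^ kf i :=
    pow_le_pow_of_le_one (norm_unif_pos (j i) (hπ i)).le (norm_unif_lt_one (j i) (hπ i)).le
      (Finset.le_sup (Finset.mem_univ i))
  have h6 : ‖j i ((a i / b : Fˣ) : F) - 1‖ < min ε 1 := h4.trans_le (h5.trans (hkf i).le)
  have hjb : j i (b : F) ≠ 0 := (map_ne_zero (j i)).mpr b.ne_zero
  have hja : j i (a i : F) ≠ 0 := (map_ne_zero (j i)).mpr (a i).ne_zero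
  have e : y i / j i (b : F) = y i / j i (a i : F) * j i ((a i / b : Fˣ) : F) := by
    rw [Units.val_div_eq_div_val, map_div₀]
    field_simp
  rw [e]
  exact (norm_mul_sub_one_lt (min_le_right _ _) (ha i) h6).trans_le (min_le_left _ _)

end Fermat.Agent.F4G
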