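import Fermat.Agent.F4.Glob.Compl.Bridge
import Fermat.Agent.F4.Loc.Base
import Fermat.Agent.F4.Loc.KummerFin

/-!
# F4 / GLOB / Compl : `p`-th powers in the completion (D4-ii)

`j : F →+* PadicAlgCl q`, `v = primeOf j`, `F_v = complOf j = ℚ_q(j(F))`.

* `finiteDimensional_complOf` : `F_v` is finite over `ℚ_q` (so it is a local field:
  `F4.Loc.padicVal_isLocalVal`);
* `complPow j p` : the subgroup `(F_vˣ)^p` of `(PadicAlgCl q)ˣ`;
* `map_mem_complPow_iff` : for `k` with `‖j π‖ ^ k ≤ ‖p‖ ^ 2`,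
  `j a ∈ (F_vˣ)^p ↔ a ∈ (Fˣ)^p · U_v^{(k+1)}`.
-/

set_option autoImplicit false
set_option linter.unusedSectionVars false

open NumberField IsDedekindDomain
open scoped NNReal

namespace Fermat.Agent.F4G

variable {q : ℕ} [Fact q.Prime] {F : Type*} [Field F] [NumberField F] (j : F →+* PadicAlgCl q)

/-- The completion is generated by the image of a primitive element. -/
theorem complOf_eq_adjoin_singleton {θ : F} (hθ : IntermediateField.adjoin ℚ {θ} = ⊤) :
    complOf j = IntermediateField.adjoin ℚ_[q] {j θ} := by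
  apply le_antisymm
  · rw [IntermediateField.adjoin_le_iff]
    rintro _ ⟨a, rfl⟩
    let K' : IntermediateField ℚ F :=
      Subfield.toIntermediateField
        ((IntermediateField.adjoin ℚ_[q] {j θ}).toSubfield.comap j)
        (fun x => by
          show j (algebraMap ℚ F x) ∈ (IntermediateField.adjoin ℚ_[q] {j θ}).toSubfield
          rw [eq_ratCast, map_ratCast]
          exact SubfieldClass.ratCast_mem _ x)
    have hθK : θ ∈ K' := by
      show j θ ∈ IntermediateField.adjoin ℚ_[q] {j θ}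
      exact IntermediateField.mem_adjoin_simple_self _ _
    have htop : (⊤ : IntermediateField ℚ F) ≤ K' := by
      rw [← hθ, IntermediateField.adjoin_le_iff]
      rintro x hx
      rw [Set.mem_singleton_iff] at hx
      rw [hx]
      exact hθK
    have ha : a ∈ K' := htop IntermediateField.mem_top
    exact ha
  · apply IntermediateField.adjoin.mono
    rintro x hx
    rw [Set.mem_singleton_iff] at hx
    exact ⟨θ, hx.symm⟩

/-- The completion is finite over `ℚ_q`. -/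
theorem finiteDimensional_complOf : FiniteDimensional ℚ_[q] ↥(complOf j) := by
  obtain ⟨θ, hθ⟩ := Field.exists_primitive_element ℚ F
  rw [complOf_eq_adjoin_singleton j hθ]
  exact IntermediateField.adjoin.finiteDimensional (Algebra.IsIntegral.isIntegral _)

/-- The `p`-th powers of the nonzero elements of the completion. -/
def complPow (p : ℕ) : Subgroup (PadicAlgCl q)ˣ where
  carrier := {y | ∃ z : (PadicAlgCl q)ˣ, (z : PadicAlgCl q) ∈ complOf j ∧ z ^ p = y}
  one_mem' := ⟨1, by simp, one_pow p⟩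
  mul_mem' := by
    rintro _ _ ⟨z, hz, rfl⟩ ⟨z', hz', rfl⟩
    exact ⟨z * z', by rw [Units.val_mul]; exact mul_mem hz hz', mul_pow z z' p⟩
  inv_mem' := by
    rintro _ ⟨z, hz, rfl⟩
    exact ⟨z⁻¹, by rw [Units.val_inv_eq_inv_val]; exact inv_mem hz, inv_pow z p⟩

lemma mem_complPow {p : ℕ} {y : (PadicAlgCl q)ˣ} :
    y ∈ complPow j p ↔ ∃ z : (PadicAlgCl q)ˣ, (z : PadicAlgCl q) ∈ complOf j ∧ z ^ p = y :=
  Iff.rfl

/-- Openness: an element of the completion close to `1` is a `p`-th power. -/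
theorem exists_pow_eq_of_norm_lt {p : ℕ} (hp : p.Prime) {u : PadicAlgCl q}
    (hu : u ∈ complOf j) (h : ‖u - 1‖ < ‖(p : PadicAlgCl q)‖ ^ 2) :
    ∃ z : PadicAlgCl q, z ∈ complOf j ∧ z ^ p = u := by
  have hfd := finiteDimensional_complOf j
  have hloc := Fermat.Agent.F4.Loc.padicVal_isLocalVal q (complOf j)
  have hclose : Fermat.Agent.F4.Loc.resVal (complOf j) (Fermat.Agent.F4.Loc.padicVal q)
      ((⟨u, hu⟩ : complOf j) - 1) <
      Fermat.Agent.F4.Loc.resVal (complOf j) (Fermat.Agent.F4.Loc.padicVal q)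
        ((p : ℕ) : complOf j) ^ 2 := by
    rw [Fermat.Agent.F4.Loc.resVal_apply, Fermat.Agent.F4.Loc.resVal_apply,
      Fermat.Agent.F4.Loc.padicVal_apply, Fermat.Agent.F4.Loc.padicVal_apply]
    have e1 : algebraMap (complOf j) (PadicAlgCl q) ((⟨u, hu⟩ : complOf j) - 1) = u - 1 := by
      rw [map_sub, map_one]; rfl
    have e2 : algebraMap (complOf j) (PadicAlgCl q) ((p : ℕ) : complOf j) = (p : PadicAlgCl q) :=
      map_natCast _ p
    rw [e1, e2]
    exact_mod_cast h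
  obtain ⟨x, hx⟩ := Fermat.Agent.F4.Loc.exists_pow_eq_of_close _ hloc p hp _ hclose
  refine ⟨(x : PadicAlgCl q), x.2, ?_⟩
  have := congrArg (fun t : complOf j => (t : PadicAlgCl q)) hx
  simpa using this

omit [NumberField F] in
/-- `‖t ^ n - 1‖ ≤ ‖t - 1‖` for `t` close to `1`. -/
lemma norm_pow_sub_one_le {t : PadicAlgCl q} (h : ‖t - 1‖ ≤ 1) (n : ℕ) :
    ‖t ^ n - 1‖ ≤ ‖t - 1‖ := by
  have ht : ‖t‖ ≤ 1 := by
    have e : t = (t - 1) + 1 := by ring
    rw [e]
    exact (IsUltrametricDist.norm_add_le_max _ _).trans (max_le h (by rw [norm_one]))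
  induction n with
  | zero => simp
  | succ n ih =>
    have e : t ^ (n + 1) - 1 = t ^ n * (t - 1) + (t ^ n - 1) := by ring
    rw [e]
    refine (IsUltrametricDist.norm_add_le_max _ _).trans (max_le ?_ ih)
    rw [norm_mul, norm_pow]
    exact mul_le_of_le_one_left (norm_nonneg _) (pow_le_one₀ (norm_nonneg _) ht)

/-- **(D4-ii)** `j a` is a `p`-th power in the completion iff `a ∈ (Fˣ)^p · U_v^{(k+1)}`, for
`k` large (`‖j π‖ ^ k ≤ ‖p‖ ^ 2`). -/
theorem map_mem_complPow_iff {p : ℕ} (hp : p.Prime) {π : F}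
    (hπ : (primeOf j).valuation F π = WithZero.exp (-1 : ℤ)) (k : ℕ)
    (hk : ‖j π‖ ^ k ≤ ‖(p : PadicAlgCl q)‖ ^ 2) (a : Fˣ) :
    Units.map (j : F →* PadicAlgCl q) a ∈ complPow j p ↔
      a ∈ (powMonoidHom p : Fˣ →* Fˣ).range ⊔ oneModSubgroup F (primeOf j) k := by
  refine mem_preimage_iff j hπ (complPow j p) _ k ?_ ?_ ?_ a
  · intro a' ha'
    obtain ⟨z, hz, hzp⟩ := exists_pow_eq_of_norm_lt j hp (map_mem_complOf j (a' : F))
      (lt_of_lt_of_le ha' hk)
    have hz0 : z ≠ 0 := by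
      rintro rfl
      rw [zero_pow hp.ne_zero] at hzp
      exact (map_ne_zero j).mpr a'.ne_zero hzp.symm
    refine ⟨Units.mk0 z hz0, hz, ?_⟩
    apply Units.ext
    rw [Units.val_pow_eq_pow_val, Units.val_mk0, hzp]
    rfl
  · rintro _ ⟨c, rfl⟩
    refine ⟨Units.map (j : F →* PadicAlgCl q) c, map_mem_complOf j (c : F), ?_⟩
    rw [powMonoidHom_apply, map_pow]
  · rintro _ ⟨z, hz, rfl⟩ - ε hε
    have hε' : 0 < min ε 1 := lt_min hε one_pos
    obtain ⟨c, hc⟩ := exists_unit_approx j hz z.ne_zero hε'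
    refine ⟨c ^ p, ⟨c, rfl⟩, ?_⟩
    have e : ((z ^ p : (PadicAlgCl q)ˣ) : PadicAlgCl q) / j ((c ^ p : Fˣ) : F) =
        ((z : PadicAlgCl q) / j (c : F)) ^ p := by
      rw [Units.val_pow_eq_pow_val, Units.val_pow_eq_pow_val, map_pow, div_pow]
    rw [e]
    have h1 : ‖(z : PadicAlgCl q) / j (c : F) - 1‖ ≤ 1 := (hc.trans_le (min_le_right _ _)).le
    exact (norm_pow_sub_one_le h1 p).trans_lt (hc.trans_le (min_le_left _ _))

/-- **(D4-ii)**, existence form: for `k` large, `j a ∈ (F_vˣ)^p ↔ a ∈ (Fˣ)^p · U_v^{(k+1)}`. -/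
theorem exists_forall_map_mem_complPow_iff {p : ℕ} (hp : p.Prime) :
    ∃ k₀ : ℕ, ∀ k : ℕ, k₀ ≤ k → ∀ a : Fˣ,
      (Units.map (j : F →* PadicAlgCl q) a ∈ complPow j p ↔
        a ∈ (powMonoidHom p : Fˣ →* Fˣ).range ⊔ oneModSubgroup F (primeOf j) k) := by
  obtain ⟨π, hπ⟩ := (primeOf j).valuation_exists_uniformizer F
  have hpos := norm_unif_pos j hπ
  have hlt := norm_unif_lt_one j hπ
  have hp0 : 0 < ‖(p : PadicAlgCl q)‖ ^ 2 := by
    apply pow_pos
    rw [norm_pos_iff]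
    exact_mod_cast hp.ne_zero
  obtain ⟨k₀, hk₀⟩ := exists_pow_lt_of_lt_one hp0 hlt
  refine ⟨k₀, fun k hk a => map_mem_complPow_iff j hp hπ k ?_ a⟩
  exact (pow_le_pow_of_le_one hpos.le hlt.le hk).trans hk₀.le

end Fermat.Agent.F4G
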