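import Mathlib
import Fermat.Agent.F4.Glob.Compl.Basic
import Fermat.Agent.S14.SI.Defs

/-!
# F4 / GLOB / Compl : (B3), part A — primes cut out by embeddings into `PadicAlgCl q`

* `nc_norm_eq_of_primeOf_eq` : two ring homomorphisms `M → PadicAlgCl q` cutting out the same
  prime of `M` induce the same norm on `M`;
* `nc_splitsCompletely_of_primeOf_ne` : if `M/F` is Galois of prime degree and some conjugate
  `jM ∘ σ` of `jM` cuts out another prime than `jM`, the prime below splits completely.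
-/

set_option autoImplicit false

open NumberField IsDedekindDomain

namespace Fermat.Agent.F4G.Compl

open Fermat.Agent.F4G

variable {q : ℕ} [Fact q.Prime]

section SamePrime

variable {M : Type*} [Field M] [NumberField M]

lemma nc_norm_natCast : ‖((q : ℕ) : PadicAlgCl q)‖ = (q : ℝ)⁻¹ := by
  have h2 : ‖(q : PadicAlgCl q)‖ = ‖(q : ℚ_[q])‖ := by
    rw [← PadicAlgCl.norm_extends]
    congr 1
  rw [h2, Padic.norm_p]

/-- The norm of `j x` is determined by the prime cut out by `j`. -/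
theorem nc_norm_eq_of_primeOf_eq (j₁ j₂ : M →+* PadicAlgCl q) (h : primeOf j₁ = primeOf j₂)
    (x : M) : ‖j₁ x‖ = ‖j₂ x‖ := by
  by_cases hx : x = 0
  · subst hx; simp
  set w := primeOf j₁ with hw
  have hq0 : ((q : ℕ) : M) ≠ 0 := Nat.cast_ne_zero.mpr (Fact.out : q.Prime).ne_zero
  -- the valuations of `x` and `q`
  have hvx : w.valuation M x ≠ 0 := (Valuation.ne_zero_iff _).mpr hx
  have hvq : w.valuation M (q : M) ≠ 0 := (Valuation.ne_zero_iff _).mpr hq0
  have hvq1 : w.valuation M (q : M) < 1 := by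
    have := natCast_mem_primeOf j₁
    have h1 : w.valuation M (algebraMap (𝓞 M) M (q : 𝓞 M)) < 1 :=
      (w.valuation_lt_one_iff_mem (K := M) (q : 𝓞 M)).mpr this
    simpa using h1
  obtain ⟨a, ha⟩ : ∃ a : ℤ, w.valuation M x = WithZero.exp a :=
    ⟨WithZero.log (w.valuation M x), (WithZero.exp_log hvx).symm⟩
  obtain ⟨b, hb⟩ : ∃ b : ℤ, w.valuation M (q : M) = WithZero.exp b :=
    ⟨WithZero.log (w.valuation M (q : M)), (WithZero.exp_log hvq).symm⟩
  have hb0 : b < 0 := by
    rw [hb] at hvq1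
    have : WithZero.exp b < WithZero.exp (0 : ℤ) := by simpa using hvq1
    exact WithZero.exp_lt_exp.mp this
  -- `e = -b > 0`, `y = x ^ e * q ^ a` has valuation `1`
  set e : ℕ := (-b).toNat with he
  have hecast : (e : ℤ) = -b := Int.toNat_of_nonneg (by omega)
  have he0 : e ≠ 0 := by
    intro h0
    rw [h0] at hecast
    simp at hecast
    omega
  set y : M := x ^ e * ((q : M) ^ a) with hy
  have hvy : w.valuation M y = 1 := by
    rw [hy, map_mul, map_pow, map_zpow₀, ha, hb, ← WithZero.exp_nsmul, ← WithZero.exp_zsmul,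
      ← WithZero.exp_add]
    have : e • a + a • b = 0 := by
      simp only [smul_eq_mul, nsmul_eq_mul]
      rw [hecast]; ring
    rw [this]
    rfl
  have h1 : ‖j₁ y‖ = 1 := (norm_eq_one_iff j₁ y).mpr hvy
  have h2 : ‖j₂ y‖ = 1 := (norm_eq_one_iff j₂ y).mpr (by rw [← h]; exact hvy)
  have key : ∀ j : M →+* PadicAlgCl q, ‖j y‖ = 1 → ‖j x‖ ^ e = ((q : ℝ)⁻¹) ^ (-a) := by
    intro j hj
    have hjq : j (q : M) = ((q : ℕ) : PadicAlgCl q) := map_natCast j q
    rw [hy, map_mul, map_pow, map_zpow₀, norm_mul, norm_pow, norm_zpow, hjq, nc_norm_natCast] at hj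
    have hqpos : (0 : ℝ) < (q : ℝ)⁻¹ :=
      inv_pos.mpr (by exact_mod_cast (Fact.out : q.Prime).pos)
    have hne : ((q : ℝ)⁻¹) ^ a ≠ 0 := zpow_ne_zero _ hqpos.ne'
    rw [zpow_neg]
    exact eq_inv_of_mul_eq_one_left hj
  have h3 : ‖j₁ x‖ ^ e = ‖j₂ x‖ ^ e := by rw [key j₁ h1, key j₂ h2]
  exact (pow_left_inj₀ (norm_nonneg _) (norm_nonneg _) he0).mp h3

end SamePrime

section Split

variable {F M : Type*} [Field F] [NumberField F] [Field M] [NumberField M] [Algebra F M]

omit [NumberField F] [NumberField M] in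
lemma nc_coe_algebraMap_integer (x : 𝓞 F) :
    ((algebraMap (𝓞 F) (𝓞 M) x : 𝓞 M) : M) = algebraMap F M (x : F) := rfl

/-- The prime cut out by `jM` lies over the prime cut out by its restriction to `F`. -/
lemma nc_primeOf_mem_primesOver (jM : M →+* PadicAlgCl q) :
    (primeOf jM).asIdeal ∈ (primeOf (jM.comp (algebraMap F M))).asIdeal.primesOver (𝓞 M) := by
  refine ⟨(primeOf jM).isPrime, ⟨?_⟩⟩
  ext x
  rw [Ideal.under_def, Ideal.mem_comap, mem_primeOf, mem_primeOf, nc_coe_algebraMap_integer]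
  rfl

variable [IsGalois F M]

/-- If `M/F` is Galois of prime degree and a conjugate of `jM` cuts out a different prime, then
the prime of `F` below splits completely in `M`. -/
theorem nc_splitsCompletely_of_primeOf_ne {p : ℕ} (hp : p.Prime)
    (hdeg : Module.finrank F M = p) (jM : M →+* PadicAlgCl q) (σ : M ≃ₐ[F] M)
    (hne : primeOf (jM.comp (σ : M →+* M)) ≠ primeOf jM) :
    S14SI.SplitsCompletely F M (primeOf (jM.comp (algebraMap F M))) := by
  set v := primeOf (jM.comp (algebraMap F M)) with hv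
  have hcomp : (jM.comp (σ : M →+* M)).comp (algebraMap F M) = jM.comp (algebraMap F M) := by
    ext x
    simp
  have h1 : (primeOf jM).asIdeal ∈ v.asIdeal.primesOver (𝓞 M) := nc_primeOf_mem_primesOver jM
  have h2 : (primeOf (jM.comp (σ : M →+* M))).asIdeal ∈ v.asIdeal.primesOver (𝓞 M) := by
    have := nc_primeOf_mem_primesOver (F := F) (jM.comp (σ : M →+* M))
    rwa [hcomp] at this
  have hne' : (primeOf (jM.comp (σ : M →+* M))).asIdeal ≠ (primeOf jM).asIdeal :=
    fun h => hne (HeightOneSpectrum.ext h)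
  have hfin : (v.asIdeal.primesOver (𝓞 M)).Finite := Algebra.QuasiFinite.finite_primesOver v.asIdeal
  have hgt : 1 < (v.asIdeal.primesOver (𝓞 M)).ncard :=
    (Set.one_lt_ncard_iff hfin).mpr ⟨_, _, h2, h1, hne'⟩
  have hfund := Ideal.ncard_primesOver_mul_ramificationIdxIn_mul_inertiaDegIn v.asIdeal (𝓞 M)
    Gal(M/F)
  rw [IsGaloisGroup.card_eq_finrank Gal(M/F) F M, hdeg] at hfund
  have hdvd : (v.asIdeal.primesOver (𝓞 M)).ncard ∣ p := Dvd.intro _ hfund
  rcases (Nat.dvd_prime hp).mp hdvd with h | h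
  · omega
  · show (v.asIdeal.primesOver (𝓞 M)).ncard = Module.finrank F M
    rw [h, hdeg]

end Split

end Fermat.Agent.F4G.Compl
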