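import Fermat.Agent.F4.Glob.Compl.Basic

/-!
# F4 / GLOB / Compl / Density : `j(F)` is dense in `ℚ_q(j(F))`  (B2)

`F` a number field, `j : F →+* PadicAlgCl q`.  Every element of the field generated over `ℚ_q`
by `j(F)` is a limit of elements of `j(F)`.

Proof: the topological closure `R` of the subring `j(F)` contains the image of `ℚ_q`
(`ℚ` is dense in `ℚ_q` and `j` is the identity on `ℚ`), hence the `ℚ_q`-algebra generated by
`j(F)`, which is the field generated by `j(F)` because everything is algebraic over `ℚ_q`.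
-/

set_option autoImplicit false

open NumberField

namespace Fermat.Agent.F4G.Compl

variable {q : ℕ} [Fact q.Prime] {F : Type*} [Field F] [NumberField F] (j : F →+* PadicAlgCl q)

omit [NumberField F] in
/-- membership in the closure of `j(F)` in terms of the norm -/
lemma density_mem_closure_iff (y : PadicAlgCl q) :
    y ∈ j.range.topologicalClosure ↔ ∀ ε : ℝ, 0 < ε → ∃ a : F, ‖y - j a‖ < ε := by
  show y ∈ closure (j.range : Set (PadicAlgCl q)) ↔ _
  rw [Metric.mem_closure_iff]
  constructor
  · intro h ε hε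
    obtain ⟨b, ⟨a, rfl⟩, hb⟩ := h ε hε
    exact ⟨a, by rwa [dist_eq_norm] at hb⟩
  · intro h ε hε
    obtain ⟨a, ha⟩ := h ε hε
    exact ⟨j a, ⟨a, rfl⟩, by rwa [dist_eq_norm]⟩

omit [NumberField F] in
/-- the image of `ℚ_q` lies in the closure of `j(F)` -/
lemma density_algebraMap_mem_closure (x : ℚ_[q]) :
    algebraMap ℚ_[q] (PadicAlgCl q) x ∈ j.range.topologicalClosure := by
  rw [density_mem_closure_iff]
  intro ε hε
  obtain ⟨r, hr⟩ := Padic.rat_dense q x hε
  refine ⟨(r : F), ?_⟩
  have h1 : j (r : F) = algebraMap ℚ_[q] (PadicAlgCl q) (r : ℚ_[q]) := by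
    rw [map_ratCast, map_ratCast]
  rw [h1, ← map_sub, PadicAlgCl.norm_extends]
  exact hr

omit [NumberField F] in
/-- **B2 (density).**  Every element of `ℚ_q(j(F))` is approximated by elements of `j(F)`. -/
theorem exists_approx_of_mem_adjoin {y : PadicAlgCl q}
    (hy : y ∈ IntermediateField.adjoin ℚ_[q] (Set.range j)) {ε : ℝ} (hε : 0 < ε) :
    ∃ a : F, ‖y - j a‖ < ε := by
  have halg : ∀ x ∈ Set.range j, IsAlgebraic ℚ_[q] x := fun x _ =>
    Algebra.IsAlgebraic.isAlgebraic x
  have h1 : y ∈ Algebra.adjoin ℚ_[q] (Set.range j) := by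
    rw [← IntermediateField.adjoin_toSubalgebra_of_isAlgebraic halg]
    exact hy
  -- the closure as a `ℚ_q`-subalgebra
  let R : Subalgebra ℚ_[q] (PadicAlgCl q) :=
    { j.range.topologicalClosure.toSubsemiring with
      algebraMap_mem' := fun x => density_algebraMap_mem_closure j x }
  have h2 : Algebra.adjoin ℚ_[q] (Set.range j) ≤ R := by
    apply Algebra.adjoin_le
    rintro _ ⟨a, rfl⟩
    exact j.range.le_topologicalClosure ⟨a, rfl⟩
  have h3 : y ∈ j.range.topologicalClosure := h2 h1
  exact (density_mem_closure_iff j y).1 h3 ε hε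

end Fermat.Agent.F4G.Compl
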