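import Fermat.Agent.F4.Glob.Compl.Quant
import Fermat.Agent.F4.Glob.Compl.Density
import Fermat.Agent.F4.Glob.Approx

/-!
# F4 / GLOB / Compl : the open–dense bridge (B4, abstract form) and weak approximation

`j : F →+* PadicAlgCl q`, `v = primeOf j`, `F_v = ℚ_q(j(F))` (`complOf j`).

* `exists_unit_approx` : every `y ∈ F_vˣ` is multiplicatively approximated by `j(a)`, `a ∈ Fˣ`;
* `mem_preimage_iff` : if `G ≤ (PadicAlgCl q)ˣ` contains the `j(a)` with `‖j a - 1‖ < ‖j π‖ ^ k`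
  (open) and `j(G₀)` is dense in `G`, then `j a ∈ G ↔ a ∈ G₀ · U_v^{(k+1)}`;
* `exists_simultaneous_approx` : weak approximation for finitely many embeddings
  `j i : F →+* PadicAlgCl (q i)` with pairwise distinct primes `primeOf (j i)`.
-/

set_option autoImplicit false
set_option linter.unusedSectionVars false

open NumberField IsDedekindDomain

namespace Fermat.Agent.F4G

variable {q : ℕ} [Fact q.Prime] {F : Type*} [Field F] [NumberField F] (j : F →+* PadicAlgCl q)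

/-- The completion of `F` at `primeOf j`, inside `PadicAlgCl q`. -/
noncomputable abbrev complOf : IntermediateField ℚ_[q] (PadicAlgCl q) :=
  IntermediateField.adjoin ℚ_[q] (Set.range j)

lemma map_mem_complOf (a : F) : j a ∈ complOf j :=
  IntermediateField.subset_adjoin _ _ ⟨a, rfl⟩

/-- Multiplicative approximation: every nonzero `y ∈ F_v` is `j a · (1 + small)`. -/
theorem exists_unit_approx {y : PadicAlgCl q} (hy : y ∈ complOf j) (hy0 : y ≠ 0) {ε : ℝ}
    (hε : 0 < ε) : ∃ a : Fˣ, ‖y / j (a : F) - 1‖ < ε := by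
  have hyn : 0 < ‖y‖ := norm_pos_iff.mpr hy0
  set δ : ℝ := min (1 / 2) (ε / 2) * ‖y‖ with hδ
  have hδ0 : 0 < δ := by positivity
  obtain ⟨a, ha⟩ := Compl.exists_approx_of_mem_adjoin j hy hδ0
  have h1 : ‖y - j a‖ < 1 / 2 * ‖y‖ :=
    lt_of_lt_of_le ha (mul_le_mul_of_nonneg_right (min_le_left _ _) hyn.le)
  have h2 : ‖y - j a‖ < ε / 2 * ‖y‖ :=
    lt_of_lt_of_le ha (mul_le_mul_of_nonneg_right (min_le_right _ _) hyn.le)
  have h3 : ‖y‖ / 2 < ‖j a‖ := by
    have := norm_sub_norm_le y (j a)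
    linarith
  have hja : j a ≠ 0 := norm_pos_iff.mp (lt_trans (by positivity) h3)
  have ha0 : a ≠ 0 := fun h => hja (by rw [h, map_zero])
  refine ⟨Units.mk0 a ha0, ?_⟩
  rw [Units.val_mk0]
  have e : y / j a - 1 = (y - j a) / j a := by field_simp
  rw [e, norm_div, div_lt_iff₀ (norm_pos_iff.mpr hja)]
  nlinarith

/-- **The open–dense bridge.** -/
theorem mem_preimage_iff {π : F} (hπ : (primeOf j).valuation F π = WithZero.exp (-1 : ℤ))
    (G : Subgroup (PadicAlgCl q)ˣ) (G₀ : Subgroup Fˣ) (k : ℕ)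
    (hopen : ∀ a : Fˣ, ‖j (a : F) - 1‖ < ‖j π‖ ^ k → Units.map (j : F →* PadicAlgCl q) a ∈ G)
    (hG₀ : ∀ g ∈ G₀, Units.map (j : F →* PadicAlgCl q) g ∈ G)
    (hdense : ∀ y ∈ G, ((y : (PadicAlgCl q)ˣ) : PadicAlgCl q) ∈ complOf j → ∀ ε : ℝ, 0 < ε →
      ∃ g ∈ G₀, ‖(y : PadicAlgCl q) / j (g : F) - 1‖ < ε)
    (a : Fˣ) :
    Units.map (j : F →* PadicAlgCl q) a ∈ G ↔ a ∈ G₀ ⊔ oneModSubgroup F (primeOf j) k := by
  have hpos : 0 < ‖j π‖ ^ k := pow_pos (norm_unif_pos j hπ) k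
  constructor
  · intro h
    obtain ⟨g, hg, hlt⟩ := hdense _ h (map_mem_complOf j a) _ hpos
    have hmem : a / g ∈ oneModSubgroup F (primeOf j) k := by
      rw [mem_oneModSubgroup_iff_norm j hπ, Units.val_div_eq_div_val, map_div₀]
      exact hlt
    have e : a = g * (a / g) := by rw [mul_div_cancel]
    rw [e]
    exact Subgroup.mul_mem _ (Subgroup.mem_sup_left hg) (Subgroup.mem_sup_right hmem)
  · intro h
    obtain ⟨g, hg, u, hu, rfl⟩ := Subgroup.mem_sup.mp h
    rw [map_mul]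
    exact Subgroup.mul_mem _ (hG₀ g hg) (hopen u ((mem_oneModSubgroup_iff_norm j hπ u k).mp hu))

end Fermat.Agent.F4G
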