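import Mathlib

/-!
# F4 / GLOB / Compl : (B3), part G — the Galois core (pure field theory)

`Ω/K` a normal extension of fields of characteristic zero, `E ⊆ L` intermediate fields,
`M/F` a finite Galois extension, `jM : M → L ⊆ Ω` a ring homomorphism whose restriction `j` to `F`
takes values in `E`, and `L = E(jM(M))` (structure `NCData`).  Then

* `NCData.res : Gal(L/E) →* Gal(M/F)` is injective, `L/E` is Galois (`NCData.isGalois_top`);
* `NCData.finrank_dvd` : `[L : E] ∣ [M : F]`;
* `NCData.finrank_eq_of_prime` : `[L : E] = p` if `[M : F] = p` is prime and `jM(M) ⊄ E`;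
* `NCData.norm_eq` : `N_{L/E}(jM z) = j(N_{M/F} z)` if `[L : E] = [M : F]`.
-/

set_option autoImplicit false
set_option linter.style.haveILetI false

open IntermediateField Polynomial

namespace Fermat.Agent.F4G.Compl

section GaloisCore

variable {K Ω F M : Type*} [Field K] [Field Ω] [Algebra K Ω]
  [Field F] [Field M] [Algebra F M]

/-- A ring homomorphism `σ` of `Ω` fixing `j(F)` permutes the image of a normal extension. -/
lemma nc_conj_mem_range [Normal F M] (j : F →+* Ω) (jM : M →+* Ω)
    (hj : ∀ a, jM (algebraMap F M a) = j a) (σ : Ω →+* Ω) (hσ : ∀ a, σ (j a) = j a) (x : M) :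
    σ (jM x) ∈ jM.range := by
  have hs : ((minpoly F x).map (algebraMap F M)).Splits := Normal.splits inferInstance x
  have h0 : (minpoly F x).map (algebraMap F M) ≠ 0 :=
    Polynomial.map_ne_zero (minpoly.ne_zero (Algebra.IsIntegral.isIntegral x))
  refine hs.mem_range_of_isRoot h0 (i := jM) ?_
  have hcomp : jM.comp (algebraMap F M) = j := RingHom.ext hj
  have hσj : σ.comp j = j := RingHom.ext hσ
  rw [Polynomial.map_map, hcomp, IsRoot.def, eval_map, ← hσj, ← Polynomial.hom_eval₂,
    ← hcomp, ← Polynomial.hom_eval₂]
  have : eval₂ (algebraMap F M) x (minpoly F x) = 0 := by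
    rw [← Polynomial.aeval_def]; exact minpoly.aeval F x
  rw [this, map_zero, map_zero]

variable (j : F →+* Ω) (jM : M →+* Ω) (E L : IntermediateField K Ω)

/-- The data of (B3), abstractly: `E ⊆ L` intermediate fields of `Ω/K`, `j : F → E`,
`jM : M → L` extending `j`, and `L` is generated over `E` by the image of `jM`. -/
structure NCData : Prop where
  hj : ∀ a, jM (algebraMap F M a) = j a
  hEL : E ≤ L
  hjE : ∀ a, j a ∈ E
  hML : ∀ x, jM x ∈ L
  hgen : IntermediateField.extendScalars hEL = IntermediateField.adjoin E (Set.range jM)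

variable {j jM E L}

namespace NCData

variable (D : NCData j jM E L)

/-- `L` as an extension of `E`. -/
abbrev top : IntermediateField E Ω := IntermediateField.extendScalars D.hEL

/-- `j` with values in `E`. -/
def jE : F →+* E := j.codRestrict E.toSubring D.hjE

/-- `jM` with values in `L/E`. -/
def jL : M →+* D.top := jM.codRestrict D.top.toSubring D.hML

lemma jE_coe (a : F) : (D.jE a : Ω) = j a := rfl

lemma jL_coe (x : M) : (D.jL x : Ω) = jM x := rfl

/-- The `F`-algebra structure on `E`. -/
@[reducible] def algFE : Algebra F E := D.jE.toAlgebra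

/-- The `F`-algebra structure on `L/E`. -/
@[reducible] def algFL : Algebra F D.top := ((algebraMap E D.top).comp D.jE).toAlgebra

/-- The `M`-algebra structure on `L/E`. -/
@[reducible] def algML : Algebra M D.top := D.jL.toAlgebra

lemma towerFEL : letI := D.algFE; letI := D.algFL; IsScalarTower F E D.top :=
  letI := D.algFE; letI := D.algFL; IsScalarTower.of_algebraMap_eq (fun _ => rfl)

lemma towerFML : letI := D.algML; letI := D.algFL; IsScalarTower F M D.top :=
  letI := D.algML; letI := D.algFL
  IsScalarTower.of_algebraMap_eq (fun a => Subtype.ext (by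
    show j a = jM (algebraMap F M a)
    exact (D.hj a).symm))

/-- The restriction homomorphism `Gal(L/E) → Gal(M/F)`. -/
noncomputable def res [Normal F M] : Gal(D.top/E) →* Gal(M/F) :=
  letI := D.algFE; letI := D.algFL; letI := D.algML
  haveI := D.towerFEL; haveI := D.towerFML
  IntermediateField.restrictRestrictAlgEquivMapHom F M E D.top

lemma res_apply [Normal F M] (φ : Gal(D.top/E)) (x : M) :
    D.jL (D.res φ x) = φ (D.jL x) := by
  letI := D.algFE; letI := D.algFL; letI := D.algML
  haveI := D.towerFEL; haveI := D.towerFML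
  exact AlgEquiv.restrictNormal_commutes _ M x

lemma res_injective [Normal F M] : Function.Injective D.res := by
  refine (injective_iff_map_eq_one _).mpr fun φ hφ => ?_
  have h1 : ∀ x : M, φ (D.jL x) = D.jL x := fun x => by
    rw [← D.res_apply, hφ]; rfl
  have h2 : (φ : D.top →ₐ[E] D.top) = AlgHom.id E D.top := by
    refine IntermediateField.algHom_ext_of_eq_adjoin E D.hgen ?_
    rintro _ ⟨x, rfl⟩
    exact h1 x
  exact AlgEquiv.ext fun y => by
    have := congrArg (fun f : D.top →ₐ[E] D.top => f y) h2
    simpa using this

lemma normal_top [Normal F M] [Normal K Ω] : Normal E D.top := by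
  haveI : Normal E Ω := Normal.tower_top_of_normal K E Ω
  refine IntermediateField.normal_iff_forall_map_le'.mpr fun σ => ?_
  have hσ : ∀ a, (σ : Ω →+* Ω) (j a) = j a := fun a => by
    have := σ.commutes (⟨j a, D.hjE a⟩ : E)
    exact this
  show D.top.map (σ : Ω →ₐ[E] Ω) ≤ D.top
  have h1 : D.top = IntermediateField.adjoin E (Set.range jM) := D.hgen
  rw [h1, IntermediateField.adjoin_map, IntermediateField.adjoin_le_iff]
  rintro _ ⟨_, ⟨x, rfl⟩, rfl⟩
  obtain ⟨x', hx'⟩ := nc_conj_mem_range j jM D.hj (σ : Ω →+* Ω) hσ x
  refine IntermediateField.subset_adjoin E _ ⟨x', ?_⟩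
  exact hx'

lemma isGalois_top [Normal F M] [Normal K Ω] [CharZero K] : IsGalois E D.top := by
  haveI : Normal E D.top := D.normal_top
  haveI : CharZero E := charZero_of_injective_algebraMap (algebraMap K E).injective
  exact ⟨⟩

lemma finiteDimensional_top [FiniteDimensional F M] [Normal K Ω] :
    FiniteDimensional E D.top := by
  haveI : Normal E Ω := Normal.tower_top_of_normal K E Ω
  obtain ⟨s, hs⟩ := (Module.finite_def (R := F) (M := M)).mp inferInstance
  have h1 : D.top = IntermediateField.adjoin E (jM '' (s : Set M)) := by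
    refine le_antisymm ?_ ?_
    · have h0 : D.top = IntermediateField.adjoin E (Set.range jM) := D.hgen
      rw [h0, IntermediateField.adjoin_le_iff]
      rintro _ ⟨x, rfl⟩
      have hx : x ∈ Submodule.span F (s : Set M) := by rw [hs]; trivial
      induction hx using Submodule.span_induction with
      | mem x hx => exact IntermediateField.subset_adjoin E _ ⟨x, hx, rfl⟩
      | zero => rw [map_zero]; exact zero_mem _
      | add x y _ _ hx hy => rw [map_add]; exact add_mem hx hy
      | smul c x _ hx =>
        rw [Algebra.smul_def, map_mul, D.hj]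
        refine mul_mem ?_ hx
        exact IntermediateField.algebraMap_mem _ (⟨j c, D.hjE c⟩ : E)
    · rw [IntermediateField.adjoin_le_iff]
      rintro _ ⟨x, -, rfl⟩
      exact D.hML x
  rw [h1]
  haveI : Finite (jM '' (s : Set M)) := (s.finite_toSet.image jM).to_subtype
  exact IntermediateField.finiteDimensional_adjoin
    (fun x _ => (Algebra.IsIntegral.isIntegral (R := E) x))

/-- `[L : E]` divides `[M : F]`. -/
lemma finrank_dvd [FiniteDimensional F M] [IsGalois F M] [Normal K Ω] [CharZero K] :
    Module.finrank E D.top ∣ Module.finrank F M := by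
  haveI := D.isGalois_top
  haveI := D.finiteDimensional_top
  rw [← IsGalois.card_aut_eq_finrank E D.top, ← IsGalois.card_aut_eq_finrank F M]
  exact Subgroup.card_dvd_of_injective D.res D.res_injective

/-- **(B3a), abstract form.** If `[M : F] = p` is prime and the image of `jM` is not contained
in `E`, then `[L : E] = p`. -/
theorem finrank_eq_of_prime [FiniteDimensional F M] [IsGalois F M] [Normal K Ω] [CharZero K]
    {p : ℕ} (hp : p.Prime) (hdeg : Module.finrank F M = p) {x : M} (hx : jM x ∉ E) :
    Module.finrank E D.top = p := by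
  have h1 := D.finrank_dvd
  rw [hdeg] at h1
  rcases (Nat.dvd_prime hp).mp h1 with h | h
  · exfalso
    have h2 : D.top = ⊥ := IntermediateField.finrank_eq_one_iff.mp h
    have h3 : jM x ∈ D.top := D.hML x
    rw [h2, IntermediateField.mem_bot] at h3
    obtain ⟨y, hy⟩ := h3
    exact hx (hy ▸ y.2)
  · exact h

/-- **(B3b), abstract form.** If `[L : E] = [M : F]`, the norms are compatible. -/
theorem norm_eq [FiniteDimensional F M] [IsGalois F M] [Normal K Ω] [CharZero K]
    (hdeg : Module.finrank E D.top = Module.finrank F M) (z : M) :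
    Algebra.norm E (D.jL z) = D.jE (Algebra.norm F z) := by
  haveI := D.isGalois_top
  haveI := D.finiteDimensional_top
  have hbij : Function.Bijective D.res := by
    rw [Nat.bijective_iff_injective_and_card]
    exact ⟨D.res_injective, by
      rw [IsGalois.card_aut_eq_finrank E D.top, IsGalois.card_aut_eq_finrank F M, hdeg]⟩
  apply (algebraMap E D.top).injective
  rw [Algebra.norm_eq_prod_automorphisms]
  have h1 : ∀ φ : Gal(D.top/E), φ (D.jL z) = D.jL (D.res φ z) := fun φ => (D.res_apply φ z).symm
  simp_rw [h1]
  rw [← map_prod, Fintype.prod_bijective D.res hbij (fun φ => D.res φ z) (fun σ => σ z)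
    (fun _ => rfl), ← Algebra.norm_eq_prod_automorphisms]
  apply Subtype.ext
  show jM (algebraMap F M (Algebra.norm F z)) = j (Algebra.norm F z)
  exact D.hj _

end NCData

end GaloisCore

end Fermat.Agent.F4G.Compl
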