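import Mathlib
import Fermat.Agent.F4.Glob.Compl.Basic
import Fermat.Agent.F4.Glob.Compl.Density
import Fermat.Agent.F4.Glob.Compl.NormCompatA
import Fermat.Agent.F4.Glob.Compl.NormCompatG

/-!
# F4 / GLOB / Compl : (B3) local degree and norm compatibility

`M/F` a Galois extension of number fields of prime degree `p`, `jM : M →+* PadicAlgCl q`,
`j = jM ∘ algebraMap F M`, `E = ℚ_q(j(F))`, `L = ℚ_q(jM(M))`.

* `exists_notMem_adjoin_of_not_splitsCompletely` : if `primeOf j` does not split completely in
  `M`, then `jM(M) ⊄ E`;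
* `finrank_extendScalars_of_not_splitsCompletely` **(B3a)** : then `[L : E] = p`;
* `norm_extendScalars_of_not_splitsCompletely` **(B3b)** : and `N_{L/E}(jM z) = j(N_{M/F} z)`.
-/

set_option autoImplicit false
set_option linter.style.haveILetI false

open NumberField IsDedekindDomain IntermediateField

namespace Fermat.Agent.F4G.Compl

open Fermat.Agent.F4G

variable {q : ℕ} [Fact q.Prime]
variable {F M : Type*} [Field F] [NumberField F] [Field M] [NumberField M] [Algebra F M]

omit [NumberField F] [NumberField M] in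
/-- `ℚ_q(j(F)) ⊆ ℚ_q(jM(M))`. -/
theorem adjoin_range_comp_le (jM : M →+* PadicAlgCl q) :
    adjoin ℚ_[q] (Set.range (jM.comp (algebraMap F M))) ≤ adjoin ℚ_[q] (Set.range jM) :=
  IntermediateField.adjoin.mono _ _ _ (by
    rintro _ ⟨a, rfl⟩
    exact ⟨algebraMap F M a, rfl⟩)

omit [NumberField F] [NumberField M] in
/-- The abstract data of the Galois core, in the concrete situation. -/
theorem ncData (j : F →+* PadicAlgCl q) (jM : M →+* PadicAlgCl q)
    (hj : ∀ a, jM (algebraMap F M a) = j a) :
    NCData j jM (adjoin ℚ_[q] (Set.range j)) (adjoin ℚ_[q] (Set.range jM)) where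
  hj := hj
  hEL := IntermediateField.adjoin.mono _ _ _ (by
    rintro _ ⟨a, rfl⟩
    exact ⟨algebraMap F M a, hj a⟩)
  hjE := fun a => subset_adjoin _ _ ⟨a, rfl⟩
  hML := fun x => subset_adjoin _ _ ⟨x, rfl⟩
  hgen := extendScalars_adjoin _

variable [IsGalois F M]

/-- If the prime cut out by `j` does not split completely in `M`, then the image of `jM` is not
contained in the local field `ℚ_q(j(F))`. -/
theorem exists_notMem_adjoin_of_not_splitsCompletely {p : ℕ} (hp : p.Prime)
    (hdeg : Module.finrank F M = p) (jM : M →+* PadicAlgCl q)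
    (hns : ¬ S14SI.SplitsCompletely F M (primeOf (jM.comp (algebraMap F M)))) :
    ∃ x : M, jM x ∉ adjoin ℚ_[q] (Set.range (jM.comp (algebraMap F M))) := by
  by_contra hcon
  simp only [not_exists, not_not] at hcon
  haveI : FiniteDimensional F M := Module.finite_of_finrank_pos (by rw [hdeg]; exact hp.pos)
  -- a nontrivial automorphism
  have hcard : Nat.card Gal(M/F) = p := by rw [IsGalois.card_aut_eq_finrank, hdeg]
  have hnt : Nontrivial Gal(M/F) := by
    rw [← Finite.one_lt_card_iff_nontrivial, hcard]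
    exact hp.one_lt
  obtain ⟨σ, hσ⟩ := exists_ne (1 : Gal(M/F))
  obtain ⟨θ, hθ⟩ : ∃ θ : M, σ θ ≠ θ := by
    by_contra h
    simp only [not_exists, not_not] at h
    exact hσ (AlgEquiv.ext h)
  set ε : ℝ := ‖jM (σ θ - θ)‖ with hε
  have hεpos : 0 < ε := norm_pos_iff.mpr ((map_ne_zero jM).mpr (sub_ne_zero.mpr hθ))
  obtain ⟨a, ha⟩ := exists_approx_of_mem_adjoin (jM.comp (algebraMap F M)) (hcon θ) hεpos
  set x : M := θ - algebraMap F M a with hx
  have h1 : ‖jM x‖ < ε := by
    rw [hx, map_sub]
    exact ha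
  have h2 : ‖(jM.comp (σ : M →+* M)) x‖ = ε := by
    have e : (jM.comp (σ : M →+* M)) x = jM (σ θ - θ) + jM x := by
      rw [RingHom.comp_apply, ← map_add]
      congr 1
      rw [hx]
      simp
    rw [e]
    have hne : ‖jM (σ θ - θ)‖ ≠ ‖jM x‖ := ne_of_gt h1
    rw [IsUltrametricDist.norm_add_eq_max_of_norm_ne_norm hne]
    exact max_eq_left h1.le
  have h3 : primeOf (jM.comp (σ : M →+* M)) ≠ primeOf jM := by
    intro h
    have := nc_norm_eq_of_primeOf_eq _ _ h x
    rw [h2] at this
    exact absurd this (ne_of_gt h1)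
  exact hns (nc_splitsCompletely_of_primeOf_ne hp hdeg jM σ h3)

/-- **(B3a)** At a prime which does not split completely in the Galois extension `M/F` of prime
degree `p`, the local degree `[ℚ_q(jM(M)) : ℚ_q(j(F))]` is `p`. -/
theorem finrank_extendScalars_of_not_splitsCompletely {p : ℕ} (hp : p.Prime)
    (hdeg : Module.finrank F M = p) (jM : M →+* PadicAlgCl q)
    (hns : ¬ S14SI.SplitsCompletely F M (primeOf (jM.comp (algebraMap F M))))
    (hEL : adjoin ℚ_[q] (Set.range (jM.comp (algebraMap F M))) ≤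
      adjoin ℚ_[q] (Set.range jM)) :
    Module.finrank ↥(adjoin ℚ_[q] (Set.range (jM.comp (algebraMap F M))))
      ↥(IntermediateField.extendScalars hEL) = p := by
  haveI : FiniteDimensional F M := Module.finite_of_finrank_pos (by rw [hdeg]; exact hp.pos)
  obtain ⟨x, hx⟩ := exists_notMem_adjoin_of_not_splitsCompletely hp hdeg jM hns
  exact (ncData (jM.comp (algebraMap F M)) jM (fun _ => rfl)).finrank_eq_of_prime hp hdeg hx

/-- **(B3b)** Norm compatibility at a prime which does not split completely: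
`N_{L/E}(jM z) = j(N_{M/F} z)`. -/
theorem norm_extendScalars_of_not_splitsCompletely {p : ℕ} (hp : p.Prime)
    (hdeg : Module.finrank F M = p) (jM : M →+* PadicAlgCl q)
    (hns : ¬ S14SI.SplitsCompletely F M (primeOf (jM.comp (algebraMap F M))))
    (hEL : adjoin ℚ_[q] (Set.range (jM.comp (algebraMap F M))) ≤
      adjoin ℚ_[q] (Set.range jM)) (z : M) :
    Algebra.norm ↥(adjoin ℚ_[q] (Set.range (jM.comp (algebraMap F M))))
        (⟨jM z, show jM z ∈ adjoin ℚ_[q] (Set.range jM) from subset_adjoin _ _ ⟨z, rfl⟩⟩ :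
          ↥(IntermediateField.extendScalars hEL)) =
      ⟨(jM.comp (algebraMap F M)) (Algebra.norm F z),
        subset_adjoin ℚ_[q] (Set.range (jM.comp (algebraMap F M))) ⟨Algebra.norm F z, rfl⟩⟩ := by
  haveI : FiniteDimensional F M := Module.finite_of_finrank_pos (by rw [hdeg]; exact hp.pos)
  have D := ncData (jM.comp (algebraMap F M)) jM (fun _ => rfl)
  have h1 := finrank_extendScalars_of_not_splitsCompletely hp hdeg jM hns hEL
  exact D.norm_eq (h1.trans hdeg.symm) z

/-- **(B3a)**, with `j` a variable. -/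
theorem finrank_extendScalars_of_not_splitsCompletely' {p : ℕ} (hp : p.Prime)
    (hdeg : Module.finrank F M = p) (j : F →+* PadicAlgCl q) (jM : M →+* PadicAlgCl q)
    (hj : ∀ a, jM (algebraMap F M a) = j a)
    (hns : ¬ S14SI.SplitsCompletely F M (primeOf j))
    (hEL : adjoin ℚ_[q] (Set.range j) ≤ adjoin ℚ_[q] (Set.range jM)) :
    Module.finrank ↥(adjoin ℚ_[q] (Set.range j)) ↥(IntermediateField.extendScalars hEL) = p := by
  obtain rfl : j = jM.comp (algebraMap F M) := RingHom.ext fun a => (hj a).symm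
  exact finrank_extendScalars_of_not_splitsCompletely hp hdeg jM hns hEL

/-- **(B3b)**, with `j` a variable and arbitrary membership proofs. -/
theorem norm_extendScalars_of_not_splitsCompletely' {p : ℕ} (hp : p.Prime)
    (hdeg : Module.finrank F M = p) (j : F →+* PadicAlgCl q) (jM : M →+* PadicAlgCl q)
    (hj : ∀ a, jM (algebraMap F M a) = j a)
    (hns : ¬ S14SI.SplitsCompletely F M (primeOf j))
    (hEL : adjoin ℚ_[q] (Set.range j) ≤ adjoin ℚ_[q] (Set.range jM)) (z : M)
    (h1 : jM z ∈ IntermediateField.extendScalars hEL)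
    (h2 : j (Algebra.norm F z) ∈ adjoin ℚ_[q] (Set.range j)) :
    Algebra.norm ↥(adjoin ℚ_[q] (Set.range j))
        (⟨jM z, h1⟩ : ↥(IntermediateField.extendScalars hEL)) = ⟨j (Algebra.norm F z), h2⟩ := by
  obtain rfl : j = jM.comp (algebraMap F M) := RingHom.ext fun a => (hj a).symm
  exact norm_extendScalars_of_not_splitsCompletely hp hdeg jM hns hEL z

end Fermat.Agent.F4G.Compl
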