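import Fermat.Agent.F4.Glob.Compl.Pow
import Fermat.Agent.F4.Glob.Compl.NormCompat
import Fermat.Agent.F4.Loc.NormIndex

/-!
# F4 / GLOB / Compl : norms from the completion (D4-iii)

`M/F` Galois of prime degree `p`, `jM : M →+* PadicAlgCl q` extending `j : F →+* PadicAlgCl q`,
`v = primeOf j` not split completely in `M`, `F_v = complOf j ⊆ M_w = complOf jM`.

* `complNorm j jM hj` : the norm group `N_{M_w/F_v}(M_wˣ)`, as a subgroup of `(PadicAlgCl q)ˣ`;
* `exists_forall_map_mem_complNorm_iff` : for `k` large,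
  `j a ∈ N(M_wˣ) ↔ a ∈ localNormGroup F M v k = N(Mˣ) · U_v^{(k+1)}`.
-/

set_option autoImplicit false
set_option linter.unusedSectionVars false
set_option linter.style.haveILetI false

open NumberField IsDedekindDomain
open scoped NNReal

namespace Fermat.Agent.F4G

open Fermat.Agent.F4.Loc Fermat.Agent.S14SI

variable {q : ℕ} [Fact q.Prime]

/-- In `PadicAlgCl q`, a product of elements close to `1` is close to `1`. -/
lemma norm_prod_sub_one_le {ι : Type*} (s : Finset ι) (f : ι → PadicAlgCl q) {δ : ℝ}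
    (hδ : δ ≤ 1) (hδ0 : 0 ≤ δ) (h : ∀ i ∈ s, ‖f i - 1‖ ≤ δ) : ‖∏ i ∈ s, f i - 1‖ ≤ δ := by
  classical
  induction s using Finset.induction_on with
  | empty => simpa using hδ0
  | insert a s ha ih =>
    rw [Finset.prod_insert ha]
    have h1 := h a (Finset.mem_insert_self a s)
    have h2 := ih (fun i hi => h i (Finset.mem_insert_of_mem hi))
    have hfa : ‖f a‖ ≤ 1 := by
      have e : f a = (f a - 1) + 1 := by ring
      rw [e]
      exact (IsUltrametricDist.norm_add_le_max _ _).trans
        (max_le (h1.trans hδ) (by rw [norm_one]))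
    have e : f a * ∏ i ∈ s, f i - 1 = f a * (∏ i ∈ s, f i - 1) + (f a - 1) := by ring
    rw [e]
    refine (IsUltrametricDist.norm_add_le_max _ _).trans (max_le ?_ h1)
    rw [norm_mul]
    exact (mul_le_of_le_one_left (norm_nonneg _) hfa).trans h2

variable {F M : Type} [Field F] [NumberField F] [Field M] [NumberField M] [Algebra F M]
  [IsGalois F M]
variable (j : F →+* PadicAlgCl q) (jM : M →+* PadicAlgCl q)
  (hj : ∀ a, jM (algebraMap F M a) = j a)

/-- The norm group `N_{M_w/F_v}(M_wˣ)` inside `(PadicAlgCl q)ˣ`. -/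
noncomputable def complNorm : Subgroup (PadicAlgCl q)ˣ :=
  ((Units.map (Algebra.norm ↥(complOf j) :
      ↥(Compl.ncData j jM hj).top →* ↥(complOf j))).range).map
    (Units.map (algebraMap ↥(complOf j) (PadicAlgCl q) : ↥(complOf j) →* PadicAlgCl q))

lemma mem_complNorm {y : (PadicAlgCl q)ˣ} :
    y ∈ complNorm j jM hj ↔ ∃ t : (↥(Compl.ncData j jM hj).top)ˣ,
      ((Algebra.norm ↥(complOf j) (t : ↥(Compl.ncData j jM hj).top) : ↥(complOf j)) :
        PadicAlgCl q) = (y : PadicAlgCl q) := by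
  unfold complNorm
  constructor
  · rintro ⟨_, ⟨t, rfl⟩, rfl⟩
    exact ⟨t, rfl⟩
  · rintro ⟨t, ht⟩
    exact ⟨_, ⟨t, rfl⟩, Units.ext ht⟩

/-- The valuation of `M_w`. -/
noncomputable abbrev complTopVal : Valuation ↥(Compl.ncData j jM hj).top ℝ≥0 :=
  resVal ↥(Compl.ncData j jM hj).top (padicVal q)

lemma complTopVal_apply (x : ↥(Compl.ncData j jM hj).top) :
    complTopVal j jM hj x = ‖(x : PadicAlgCl q)‖₊ := by
  rw [resVal_apply, padicVal_apply]
  rfl

/-- The valuation of `M_w` is invariant under `Gal(M_w/F_v)`. -/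
theorem complTopVal_isInvVal : IsInvVal ↥(complOf j) (complTopVal j jM hj) := by
  intro σ x
  haveI : Normal ↥(complOf j) (PadicAlgCl q) :=
    Normal.tower_top_of_normal ℚ_[q] ↥(complOf j) (PadicAlgCl q)
  haveI : Normal ↥(complOf j) ↥(Compl.ncData j jM hj).top := (Compl.ncData j jM hj).normal_top
  have h := padicVal_isInvVal q (complOf j) (σ.liftNormal (PadicAlgCl q))
    (algebraMap ↥(Compl.ncData j jM hj).top (PadicAlgCl q) x)
  rw [AlgEquiv.liftNormal_commutes] at h
  exact h

lemma complTopVal_resVal :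
    resVal ↥(complOf j) (complTopVal j jM hj) = resVal ↥(complOf j) (padicVal q) :=
  Valuation.ext fun _ => rfl

/-- The image of a uniformizer of `F` at `v` is a uniformizer of `F_v`. -/
theorem isUnif_map_unif {π : F} (hπ : (primeOf j).valuation F π = WithZero.exp (-1 : ℤ)) :
    IsUnif (resVal ↥(complOf j) (padicVal q)) (⟨j π, map_mem_complOf j π⟩ : ↥(complOf j)) := by
  have hpos := norm_unif_pos j hπ
  have hlt := norm_unif_lt_one j hπ
  refine ⟨?_, ?_, ?_⟩
  · intro h
    have h' := congrArg (fun t : ↥(complOf j) => (t : PadicAlgCl q)) h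
    simp only [ZeroMemClass.coe_zero] at h'
    rw [h', norm_zero] at hpos
    exact lt_irrefl _ hpos
  · rw [resVal_apply, padicVal_apply]
    exact_mod_cast hlt
  · intro x hx
    have hx0 : (x : PadicAlgCl q) ≠ 0 := fun h => hx (Subtype.ext h)
    obtain ⟨a, ha⟩ := exists_unit_approx j x.2 hx0 one_pos
    have hja : j (a : F) ≠ 0 := (map_ne_zero j).mpr a.ne_zero
    have h1 : ‖(x : PadicAlgCl q) / j (a : F)‖ = 1 := by
      have e : (x : PadicAlgCl q) / j (a : F) = 1 + ((x : PadicAlgCl q) / j (a : F) - 1) := by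
        ring
      rw [e]
      have := IsUltrametricDist.norm_add_eq_max_of_norm_ne_norm
        (x := (1 : PadicAlgCl q)) (y := (x : PadicAlgCl q) / j (a : F) - 1)
        (by rw [norm_one]; exact ha.ne')
      rw [this, norm_one]
      exact max_eq_left ha.le
    have h2 : ‖(x : PadicAlgCl q)‖ = ‖j (a : F)‖ := by
      rw [norm_div] at h1
      exact (div_eq_one_iff_eq (norm_ne_zero_iff.mpr hja)).mp h1
    have hva : (primeOf j).valuation F (a : F) ≠ 0 := (Valuation.ne_zero_iff _).mpr a.ne_zero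
    set n : ℤ := -WithZero.log ((primeOf j).valuation F (a : F)) with hn
    have hxn : (primeOf j).valuation F (a : F) = WithZero.exp (-n) := by
      rw [hn, neg_neg, WithZero.exp_log hva]
    refine ⟨n, ?_⟩
    rw [resVal_apply, resVal_apply, padicVal_apply, padicVal_apply]
    apply NNReal.eq
    rw [NNReal.coe_zpow, coe_nnnorm, coe_nnnorm]
    exact h2.trans (norm_eq_zpow j hπ hxn)

/-- The norm of an element of `M_w` close to `1` is close to `1`. -/
theorem norm_norm_sub_one_le (s : ↥(Compl.ncData j jM hj).top) {δ : ℝ} (hδ : δ ≤ 1)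
    (h : ‖(s : PadicAlgCl q) - 1‖ ≤ δ) :
    ‖((Algebra.norm ↥(complOf j) s : ↥(complOf j)) : PadicAlgCl q) - 1‖ ≤ δ := by
  haveI : FiniteDimensional F M := inferInstance
  haveI := (Compl.ncData j jM hj).isGalois_top
  haveI := (Compl.ncData j jM hj).finiteDimensional_top
  have hδ0 : 0 ≤ δ := (norm_nonneg _).trans h
  have h1 := Algebra.norm_eq_prod_automorphisms ↥(complOf j) s
  have h2 : ((Algebra.norm ↥(complOf j) s : ↥(complOf j)) : PadicAlgCl q) =
      ∏ σ : Gal(↥(Compl.ncData j jM hj).top/↥(complOf j)),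
        ((σ s : ↥(Compl.ncData j jM hj).top) : PadicAlgCl q) := by
    have h3 := congrArg (algebraMap ↥(Compl.ncData j jM hj).top (PadicAlgCl q)) h1
    rw [map_prod] at h3
    exact h3
  rw [h2]
  refine norm_prod_sub_one_le _ _ hδ hδ0 fun σ _ => ?_
  have h4 : ((σ s : ↥(Compl.ncData j jM hj).top) : PadicAlgCl q) - 1 =
      ((σ (s - 1) : ↥(Compl.ncData j jM hj).top) : PadicAlgCl q) := by
    rw [map_sub, map_one]
    rfl
  have h5 := complTopVal_isInvVal j jM hj σ (s - 1)
  rw [complTopVal_apply, complTopVal_apply] at h5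
  have h6 : ‖((σ (s - 1) : ↥(Compl.ncData j jM hj).top) : PadicAlgCl q)‖ =
      ‖((s - 1 : ↥(Compl.ncData j jM hj).top) : PadicAlgCl q)‖ := by
    have := congrArg (fun t : ℝ≥0 => (t : ℝ)) h5
    simpa only [coe_nnnorm] using this
  rw [h4, h6]
  exact h

/-- **(D4-iii)** For `k` large, `j a` is a norm from `M_w` iff `a` is a local norm to precision
`k` in the finite-level sense: `a ∈ N(Mˣ) · U_v^{(k+1)}`. -/
theorem exists_forall_map_mem_complNorm_iff {p : ℕ} (hp : p.Prime)
    (hdeg : Module.finrank F M = p) (hns : ¬ SplitsCompletely F M (primeOf j)) :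
    ∃ k₀ : ℕ, ∀ k : ℕ, k₀ ≤ k → ∀ a : Fˣ,
      (Units.map (j : F →* PadicAlgCl q) a ∈ complNorm j jM hj ↔
        a ∈ localNormGroup F M (primeOf j) k) := by
  haveI : FiniteDimensional F M := Module.finite_of_finrank_pos (by rw [hdeg]; exact hp.pos)
  haveI := (Compl.ncData j jM hj).isGalois_top
  haveI := (Compl.ncData j jM hj).finiteDimensional_top
  haveI := finiteDimensional_complOf j
  obtain ⟨π, hπ⟩ := (primeOf j).valuation_exists_uniformizer F
  have hloc : IsLocalVal (resVal ↥(complOf j) (complTopVal j jM hj)) := by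
    rw [complTopVal_resVal]
    exact padicVal_isLocalVal q (complOf j)
  have hunif : IsUnif (resVal ↥(complOf j) (complTopVal j jM hj))
      (⟨j π, map_mem_complOf j π⟩ : ↥(complOf j)) := by
    rw [complTopVal_resVal]
    exact isUnif_map_unif j hπ
  obtain ⟨n, hn⟩ := exists_norm_of_val_sub_one_le (complTopVal j jM hj)
    (complTopVal_isInvVal j jM hj) hloc _ hunif
  have hfin : Module.finrank ↥(complOf j) ↥(Compl.ncData j jM hj).top = Module.finrank F M := by
    rw [hdeg]
    exact Compl.finrank_extendScalars_of_not_splitsCompletely' hp hdeg j jM hj hns _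
  have hpos := norm_unif_pos j hπ
  have hlt := norm_unif_lt_one j hπ
  have hval : ∀ x : ↥(complOf j),
      resVal ↥(complOf j) (complTopVal j jM hj) x = ‖(x : PadicAlgCl q)‖₊ := fun x => by
    rw [complTopVal_resVal, resVal_apply, padicVal_apply]
    rfl
  refine ⟨n, fun k hk a => ?_⟩
  unfold localNormGroup
  refine mem_preimage_iff j hπ (complNorm j jM hj) _ k ?_ ?_ ?_ a
  · -- openness
    intro a' ha'
    have hle : ‖j (a' : F) - 1‖ ≤ ‖j π‖ ^ n :=
      ha'.le.trans (pow_le_pow_of_le_one hpos.le hlt.le hk)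
    obtain ⟨y, hy⟩ := hn (⟨j (a' : F), map_mem_complOf j _⟩ : ↥(complOf j)) (by
      rw [hval, hval]
      apply NNReal.coe_le_coe.mp
      rw [NNReal.coe_pow, coe_nnnorm, coe_nnnorm]
      exact hle)
    have hy0 : y ≠ 0 := by
      rintro rfl
      rw [Algebra.norm_zero] at hy
      have h' := congrArg (fun t : ↥(complOf j) => (t : PadicAlgCl q)) hy
      simp only [ZeroMemClass.coe_zero] at h'
      exact (map_ne_zero j).mpr a'.ne_zero h'.symm
    rw [mem_complNorm]
    refine ⟨Units.mk0 y hy0, ?_⟩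
    rw [Units.val_mk0, hy]
    rfl
  · -- norms of global elements
    rintro _ ⟨z, rfl⟩
    rw [mem_complNorm]
    have hz0 : (Compl.ncData j jM hj).jL (z : M) ≠ 0 :=
      (map_ne_zero ((Compl.ncData j jM hj).jL)).mpr z.ne_zero
    refine ⟨Units.mk0 _ hz0, ?_⟩
    rw [Units.val_mk0, (Compl.ncData j jM hj).norm_eq hfin (z : M)]
    rfl
  · -- density
    intro y hy _ ε hε
    rw [mem_complNorm] at hy
    obtain ⟨t, ht⟩ := hy
    have hε' : 0 < min ε 1 := lt_min hε one_pos
    have htL : ((t : ↥(Compl.ncData j jM hj).top) : PadicAlgCl q) ∈ complOf jM :=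
      (t : ↥(Compl.ncData j jM hj).top).2
    have ht0 : ((t : ↥(Compl.ncData j jM hj).top) : PadicAlgCl q) ≠ 0 := by
      intro h
      exact t.ne_zero (Subtype.ext h)
    obtain ⟨z, hz⟩ := exists_unit_approx jM htL ht0 hε'
    refine ⟨normUnits F M z, ⟨z, rfl⟩, ?_⟩
    have hz0 : (Compl.ncData j jM hj).jL (z : M) ≠ 0 :=
      (map_ne_zero ((Compl.ncData j jM hj).jL)).mpr z.ne_zero
    set s : ↥(Compl.ncData j jM hj).top :=
      (t : ↥(Compl.ncData j jM hj).top) / (Compl.ncData j jM hj).jL (z : M) with hs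
    have hs1 : ‖(s : PadicAlgCl q) - 1‖ < min ε 1 := hz
    have key := norm_norm_sub_one_le j jM hj s (hs1.le.trans (min_le_right _ _)) le_rfl
    have hmul : s * (Compl.ncData j jM hj).jL (z : M) = (t : ↥(Compl.ncData j jM hj).top) := by
      rw [hs, div_mul_cancel₀ _ hz0]
    have hN : Algebra.norm ↥(complOf j) s *
        (Compl.ncData j jM hj).jE (Algebra.norm F (z : M)) =
        Algebra.norm ↥(complOf j) (t : ↥(Compl.ncData j jM hj).top) := by
      rw [← (Compl.ncData j jM hj).norm_eq hfin (z : M), ← map_mul, hmul]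
    have hN' : ((Algebra.norm ↥(complOf j) s : ↥(complOf j)) : PadicAlgCl q) *
        j (Algebra.norm F (z : M)) = (y : PadicAlgCl q) := by
      rw [← ht, ← hN]
      rfl
    have hjN : j (Algebra.norm F (z : M)) ≠ 0 := by
      rw [Ne, map_eq_zero, Algebra.norm_eq_zero_iff]
      exact z.ne_zero
    have e : (y : PadicAlgCl q) / j ((normUnits F M z : Fˣ) : F) =
        ((Algebra.norm ↥(complOf j) s : ↥(complOf j)) : PadicAlgCl q) := by
      have e0 : ((normUnits F M z : Fˣ) : F) = Algebra.norm F (z : M) := rfl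
      rw [e0, ← hN', mul_div_cancel_right₀ _ hjN]
    rw [e]
    exact lt_of_le_of_lt key (hs1.trans_le (min_le_left _ _))

end Fermat.Agent.F4G
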