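import Fermat.Agent.F4.Glob.Compl.Basic
import Fermat.Agent.F4.Glob.NormDefs

/-!
# F4 / GLOB / Compl : the completion-model bridge, quantitative form (B1')

`j : F →+* PadicAlgCl q`, `v = primeOf j`, `π ∈ F` a uniformizer at `v`.  Then `‖j π‖ < 1` and

    ‖j x‖ = ‖j π‖ ^ n   when   v x = exp (-n),

hence `‖j x‖ < ‖j π‖ ^ n ↔ v x < exp (-n)`, and `x ∈ U_v^{(k+1)} ↔ ‖j x - 1‖ < ‖j π‖ ^ k`.
-/

set_option autoImplicit false

open NumberField IsDedekindDomain

namespace Fermat.Agent.F4G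

variable {q : ℕ} [Fact q.Prime] {F : Type*} [Field F] [NumberField F] (j : F →+* PadicAlgCl q)

/-- The norm of the image of a uniformizer is `< 1`. -/
lemma norm_unif_lt_one {π : F} (hπ : (primeOf j).valuation F π = WithZero.exp (-1 : ℤ)) :
    ‖j π‖ < 1 := by
  rw [norm_lt_one_iff, hπ, ← WithZero.exp_zero]
  exact WithZero.exp_lt_exp.mpr (by norm_num)

/-- The norm of the image of a uniformizer is positive. -/
lemma norm_unif_pos {π : F} (hπ : (primeOf j).valuation F π = WithZero.exp (-1 : ℤ)) :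
    0 < ‖j π‖ := by
  rw [norm_pos_iff, Ne, map_eq_zero]
  rintro rfl
  rw [map_zero] at hπ
  exact WithZero.exp_ne_zero hπ.symm

/-- **(B1')** `‖j x‖ = ‖j π‖ ^ n` when `v x = exp (-n)`. -/
theorem norm_eq_zpow {π : F} (hπ : (primeOf j).valuation F π = WithZero.exp (-1 : ℤ))
    {x : F} {n : ℤ} (hx : (primeOf j).valuation F x = WithZero.exp (-n)) :
    ‖j x‖ = ‖j π‖ ^ n := by
  have hπ0 : π ≠ 0 := by
    rintro rfl
    rw [map_zero] at hπ
    exact WithZero.exp_ne_zero hπ.symm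
  have hjπ : j π ≠ 0 := (map_ne_zero j).mpr hπ0
  have h1 : (primeOf j).valuation F (x * (π ^ n)⁻¹) = 1 := by
    rw [map_mul, map_inv₀, map_zpow₀, hx, hπ, ← WithZero.exp_zsmul, ← WithZero.exp_neg,
      ← WithZero.exp_add, ← WithZero.exp_zero]
    congr 1
    simp only [smul_eq_mul]
    ring
  have h2 := (norm_eq_one_iff j _).mpr h1
  rw [map_mul, map_inv₀, map_zpow₀, norm_mul, norm_inv, norm_zpow] at h2
  have h3 : ‖j π‖ ^ n ≠ 0 := zpow_ne_zero _ (norm_ne_zero_iff.mpr hjπ)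
  field_simp at h2
  exact h2

/-- **(B1')** `‖j x‖ < ‖j π‖ ^ n ↔ v x < exp (-n)`. -/
theorem norm_lt_zpow_iff {π : F} (hπ : (primeOf j).valuation F π = WithZero.exp (-1 : ℤ))
    (x : F) (n : ℤ) :
    ‖j x‖ < ‖j π‖ ^ n ↔ (primeOf j).valuation F x < WithZero.exp (-n) := by
  have hlt := norm_unif_lt_one j hπ
  have hpos := norm_unif_pos j hπ
  by_cases hx0 : x = 0
  · subst hx0
    rw [map_zero, norm_zero, map_zero]
    exact ⟨fun _ => WithZero.exp_pos, fun _ => zpow_pos hpos _⟩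
  have hvx : (primeOf j).valuation F x ≠ 0 := (Valuation.ne_zero_iff _).mpr hx0
  set m : ℤ := -WithZero.log ((primeOf j).valuation F x) with hm
  have hxm : (primeOf j).valuation F x = WithZero.exp (-m) := by
    rw [hm, neg_neg, WithZero.exp_log hvx]
  rw [norm_eq_zpow j hπ hxm, hxm, WithZero.exp_lt_exp, zpow_lt_zpow_iff_right_of_lt_one₀ hpos hlt]
  constructor <;> intro h <;> omega

/-- **(B1')** `x ∈ U_v^{(k+1)} ↔ ‖j x - 1‖ < ‖j π‖ ^ k`. -/
theorem mem_oneModSubgroup_iff_norm {π : F}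
    (hπ : (primeOf j).valuation F π = WithZero.exp (-1 : ℤ)) (x : Fˣ) (k : ℕ) :
    x ∈ oneModSubgroup F (primeOf j) k ↔ ‖j (x : F) - 1‖ < ‖j π‖ ^ k := by
  rw [mem_oneModSubgroup, ← norm_lt_zpow_iff j hπ, map_sub, map_one, zpow_natCast]

end Fermat.Agent.F4G
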